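import Mathlib
import Fermat.Agent.S44.L.RedTransfer

/-!
# S44 (Program MR), strand D, row BaseChange: the dictionary `redSet N A` ↔ `E`-level reductions

`A` a valuation subring of `ℚ̄`, `κ = Res A`.  The set `Contract.redSet N A ⊆ κ((q))` of
reductions of quotients of `A`-integral `q`-series of `Fb N` is the union, over the number
fields `E ⊆ ℚ̄` with `O_E = A ∩ E` a discrete valuation ring, of the images under
`RedTransfer.kmap A E : k_E((q)) → κ((q))` of the reductions of the Gauss-integral elements of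
`LE N E`.  The inclusion `⊇` is `RedTransfer.kmap_red_mem_redSet` (landed); this file gives `⊆`,
uniformly for all sufficiently large `E`:

* `exists_descent_redSet` : every `φ ∈ redSet N A` is `kmap (red z)` with `z ∈ LE N E` in the
  Gauss ring of `O_E`, for every `E ⊇ E₀` (`E₀` a number field depending on `φ`);
* `exists_finset_le` : a number field `E₀ ⊆ ℚ̄` is contained in every intermediate field
  containing a suitable finite set;
* `exists_finset_descent_redSet`, `exists_finset_descent_redSet_family` : the same with the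
  condition `E ⊇ S₀` for a finite set `S₀ ⊆ ℚ̄`, for one `φ` and for a finite family.
-/

set_option autoImplicit false
set_option linter.unusedSectionVars false

open ModularCurve HahnSeries

noncomputable section

namespace Fermat.Agent.S44.D.BaseChange.Dict

open Fermat.Agent.S30 Fermat.Agent.S18.K1Defs Fermat.Agent.S18.K1Top
open Fermat.Agent.S44.Contract Fermat.Agent.S44.L

local notation "Qb" => AlgebraicClosure ℚ

/-- **(T2), `redSet` form.**  Every element of `redSet N A` is, for every sufficiently large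
number field `E` (with `A ∩ E` a discrete valuation ring), the image under `kmap` of the
reduction of a Gauss-integral element of `LE N E`. -/
theorem exists_descent_redSet (N : ℕ) (A : ValuationSubring Qb)
    (φ : LaurentSeries (IsLocalRing.ResidueField A)) (hφ : φ ∈ redSet N A) :
    ∃ E₀ : IntermediateField ℚ Qb, FiniteDimensional ℚ E₀ ∧
      ∀ E : IntermediateField ℚ Qb, E₀ ≤ E → ∀ [IsDiscreteValuationRing (OE A E)],
        ∃ (z : LaurentSeries E) (hz : z ∈ GaussDVR.V (OE A E) E),
          z ∈ LE N E ∧ RedTransfer.kmap A E (GaussDVR.red (OE A E) E ⟨z, hz⟩) = φ := by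
  obtain ⟨U, V, hU, hV, hVr, h⟩ := hφ
  obtain ⟨E₁, hE₁, h₁⟩ := RedTransfer.exists_descent_int A N U hU
  obtain ⟨E₂, hE₂, h₂⟩ := RedTransfer.exists_descent_int A N V hV
  refine ⟨E₁ ⊔ E₂, IntermediateField.finiteDimensional_sup E₁ E₂, fun E hE hdvr => ?_⟩
  obtain ⟨a, haL, haU⟩ := h₁ E (le_trans le_sup_left hE)
  obtain ⟨b, hbL, hbV⟩ := h₂ E (le_trans le_sup_right hE)
  have hb : GaussDVR.rho (OE A E) b ≠ 0 := by
    intro h0
    apply hVr
    rw [← hbV, ← RedTransfer.kmap_rho, h0, map_zero]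
  refine ⟨GaussDVR.iota (OE A E) E a / GaussDVR.iota (OE A E) E b,
    GaussDVR.div_mem (OE A E) E a b hb, div_mem haL hbL, ?_⟩
  rw [GaussDVR.red_div (OE A E) E a b hb, map_div₀, RedTransfer.kmap_rho, RedTransfer.kmap_rho,
    haU, hbV]
  exact (div_eq_iff hVr).mpr h.symm

/-- A number field `E₀ ⊆ ℚ̄` is contained in every intermediate field which contains a suitable
finite set (the image of a `ℚ`-basis of `E₀`). -/
theorem exists_finset_le (E₀ : IntermediateField ℚ Qb) [FiniteDimensional ℚ E₀] :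
    ∃ S₀ : Finset Qb, ∀ E : IntermediateField ℚ Qb, (∀ s ∈ S₀, s ∈ E) → E₀ ≤ E := by
  classical
  refine ⟨Finset.univ.image fun i => ((Module.finBasis ℚ E₀ i : E₀) : Qb), fun E hE x hx => ?_⟩
  have h1 := (Module.finBasis ℚ E₀).sum_repr ⟨x, hx⟩
  have h2 : x = ∑ i, ((Module.finBasis ℚ E₀).repr ⟨x, hx⟩ i) •
      ((Module.finBasis ℚ E₀ i : E₀) : Qb) := by
    have h3 := congrArg (fun y : E₀ => (y : Qb)) h1
    simp only [AddSubmonoidClass.coe_finsetSum, IntermediateField.coe_smul] at h3
    exact h3.symm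
  rw [h2]
  exact sum_mem fun i _ =>
    E.smul_mem (hE _ (Finset.mem_image_of_mem _ (Finset.mem_univ i)))

/-- **(T2), `redSet` form, with a finite set.** -/
theorem exists_finset_descent_redSet (N : ℕ) (A : ValuationSubring Qb)
    (φ : LaurentSeries (IsLocalRing.ResidueField A)) (hφ : φ ∈ redSet N A) :
    ∃ S₀ : Finset Qb, ∀ E : IntermediateField ℚ Qb, (∀ s ∈ S₀, s ∈ E) →
      ∀ [IsDiscreteValuationRing (OE A E)],
        ∃ (z : LaurentSeries E) (hz : z ∈ GaussDVR.V (OE A E) E),
          z ∈ LE N E ∧ RedTransfer.kmap A E (GaussDVR.red (OE A E) E ⟨z, hz⟩) = φ := by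
  obtain ⟨E₀, hE₀, h⟩ := exists_descent_redSet N A φ hφ
  obtain ⟨S₀, hS₀⟩ := exists_finset_le E₀
  exact ⟨S₀, fun E hE => h E (hS₀ E hE)⟩

/-- **(T2), `redSet` form, for a finite family**: one finite set `S₀` works for all members. -/
theorem exists_finset_descent_redSet_family (N : ℕ) (A : ValuationSubring Qb)
    (T : Finset (LaurentSeries (IsLocalRing.ResidueField A))) (hT : ∀ φ ∈ T, φ ∈ redSet N A) :
    ∃ S₀ : Finset Qb, ∀ E : IntermediateField ℚ Qb, (∀ s ∈ S₀, s ∈ E) →
      ∀ [IsDiscreteValuationRing (OE A E)], ∀ φ ∈ T,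
        ∃ (z : LaurentSeries E) (hz : z ∈ GaussDVR.V (OE A E) E),
          z ∈ LE N E ∧ RedTransfer.kmap A E (GaussDVR.red (OE A E) E ⟨z, hz⟩) = φ := by
  classical
  have hex : ∀ φ : LaurentSeries (IsLocalRing.ResidueField A), ∃ S₀ : Finset Qb, φ ∈ T →
      ∀ E : IntermediateField ℚ Qb, (∀ s ∈ S₀, s ∈ E) →
      ∀ [IsDiscreteValuationRing (OE A E)],
        ∃ (z : LaurentSeries E) (hz : z ∈ GaussDVR.V (OE A E) E),
          z ∈ LE N E ∧ RedTransfer.kmap A E (GaussDVR.red (OE A E) E ⟨z, hz⟩) = φ := by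
    intro φ
    by_cases hφ : φ ∈ T
    · obtain ⟨S₀, hS₀⟩ := exists_finset_descent_redSet N A φ (hT φ hφ)
      exact ⟨S₀, fun _ => hS₀⟩
    · exact ⟨∅, fun h => absurd h hφ⟩
  choose S hS using hex
  refine ⟨T.biUnion S, fun E hE hdvr φ hφ => ?_⟩
  exact hS φ hφ E fun s hs => hE s (Finset.mem_biUnion.mpr ⟨φ, hφ, hs⟩)

end Fermat.Agent.S44.D.BaseChange.Dict
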