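import Mathlib
import Fermat.Agent.S44.D.RedDatum
import Fermat.Agent.S44.D.CechInst
import Fermat.Agent.S44.D.ConstTraceLS
import Fermat.Agent.S44.D.BaseChange.Dict
import Fermat.Agent.S44.L.RedTransfer
import Fermat.Agent.S44.L.TopLemmas
import Fermat.Agent.S44.H.HeckeMem
import Fermat.Agent.S44.H.RedFin

/-!
# Strand D of S44, route X, row (X-a): the instance glue of the base change of constants

`A` a valuation subring of `ℚ̄` over `p`, `κ` its residue field, `E ⊆ ℚ̄` a number field with
`O = OE A E` a discrete valuation ring, `k = ResidueField O`.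

* `redFieldI N A` : the reduced function field `redField N A` as an intermediate field of
  `κ((q)) / κ`; `jbI N A` its element `j̄ = jqModC κ`.
* `resAlg A E` : the `k`-algebra structure of `κ` (`RedTransfer.resMap`), so that
  `Abs.iota = RedTransfer.kmap`.
* `redFracE N A E` : the `E`-level reduced function field `RedDatum.redFrac` of the `j`-chart.
* `kmap_mem_redField` **(x1)** : `kmap (redFracE) ⊆ redField`; `rhoE` : the induced field
  homomorphism `redFracE N A E →+* redFieldI N A` (`= Abs.rho`).
* `exists_finset_mem_range` **(x4)** : every element of `redField N A` lies in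
  `kmap (redFracE N A E)` for all sufficiently large `E`.
* `exists_finset_hgen` **(x2)** : `redFieldI N A` is generated over `κ` by `kmap (redFracE N A E)`
  for all sufficiently large `E` (from finiteness over `κ(j̄)`).
* `traceDual_descent_inst`, `instAlgebraRedFrac_eq` : `ConstTraceLS.traceDual_descent` with the
  algebra instance of `LE` a variable, so that it applies to the shortcut instance
  `RedDatum.instAlgebraRedFrac` without any unfolding by the unifier.
* `exists_redFrac_dual` : the composite.  A `κ`-level trace-dual regular `G` descends, for all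
  sufficiently large `E`, to a trace-dual regular element of `redFracE N A E` (the input of
  `LiftRed.exists_lift_red`).
-/

set_option autoImplicit false
set_option linter.unusedSectionVars false
set_option linter.style.haveILetI false
set_option synthInstance.maxHeartbeats 400000
set_option maxHeartbeats 1000000

open ModularCurve AlgebraicCurve Polynomial HahnSeries IntermediateField

noncomputable section

namespace Fermat.Agent.S44.D.BaseChange.Inst

open Fermat.Agent.S18.K1Defs Fermat.Agent.S18.K1Main Fermat.Agent.S30 Fermat.Agent.S30.Model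
open Fermat.Agent.S37.Fn Fermat.Agent.S44.Contract Fermat.Agent.S44.L
open Fermat.Agent.S44.D

local notation "Qb" => AlgebraicClosure ℚ

/-! ### The `κ`-level field -/

section Kappa

variable (N : ℕ) (A : ValuationSubring Qb)

/-- The reduced function field as an intermediate field of `κ((q)) / κ`. -/
def redFieldI : IntermediateField (IsLocalRing.ResidueField A)
    (LaurentSeries (IsLocalRing.ResidueField A)) :=
  (redField N A).toIntermediateField fun c => by
    rw [algebraMap_laurentSeries_eq_single, ← HahnSeries.C_apply]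
    exact TopLemmas.C_mem_redField N A c

theorem mem_redFieldI {x : LaurentSeries (IsLocalRing.ResidueField A)} :
    x ∈ redFieldI N A ↔ x ∈ redField N A := Iff.rfl

/-- `j̄` as an element of the reduced function field. -/
def jbI : redFieldI N A :=
  ⟨jqModC (IsLocalRing.ResidueField A),
    Subfield.subset_closure (H.RedFin.jqModC_mem_redSet A N)⟩

theorem coe_jbI : ((jbI N A : redFieldI N A) : LaurentSeries (IsLocalRing.ResidueField A)) =
    jqModC (IsLocalRing.ResidueField A) := rfl

end Kappa

/-! ### The `E`-level field and the map of constants -/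

section Level

variable (N : ℕ) [NeZero N] (A : ValuationSubring Qb) (E : IntermediateField ℚ Qb)
  [IsDiscreteValuationRing (OE A E)]

/-- The `k`-algebra structure of `κ`. -/
abbrev resAlg : Algebra (IsLocalRing.ResidueField (OE A E)) (IsLocalRing.ResidueField A) :=
  (RedTransfer.resMap A E).toAlgebra

/-- The `E`-level reduced function field of the `j`-chart. -/
abbrev redFracE : IntermediateField (IsLocalRing.ResidueField (OE A E))
    (LaurentSeries (IsLocalRing.ResidueField (OE A E))) :=
  letI := algebraOL (OE A E) E (LE N E)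
  haveI := isScalarTower_OL (OE A E) E (LE N E)
  RedDatum.redFrac (OE A E) (LE N E).val (jE N E)

/-- **(x1)** The image of the `E`-level reduced field lies in the reduced field. -/
theorem kmap_mem_redField {ℓ : ℕ} [Fact ℓ.Prime] (hA : A.LiesOverPrime ℓ)
    (y : LaurentSeries (IsLocalRing.ResidueField (OE A E))) (hy : y ∈ redFracE N A E) :
    RedTransfer.kmap A E y ∈ redField N A := by
  letI := algebraOL (OE A E) E (LE N E)
  haveI := isScalarTower_OL (OE A E) E (LE N E)
  obtain ⟨a, b, -, -, hb0, h⟩ := hy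
  have hmem : ∀ c : CechAdapter.gaussSub (OE A E) (LE N E).val,
      RedTransfer.kmap A E (CechAdapter.redHom (OE A E) (LE N E).val c) ∈ redField N A := by
    intro c
    refine Subfield.subset_closure ?_
    exact RedTransfer.kmap_red_mem_redSet A E N ℓ hA ((c : LE N E) : LaurentSeries E) c.2
      (Fermat.Agent.S18.K1Top.coeffMap_mem_bar N E (c : LE N E).2)
  have hb0' : RedTransfer.kmap A E (CechAdapter.redHom (OE A E) (LE N E).val b) ≠ 0 :=
    fun h0 => hb0 (RedTransfer.kmap_injective A E (by rw [h0, map_zero]))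
  have h2 : RedTransfer.kmap A E y =
      RedTransfer.kmap A E (CechAdapter.redHom (OE A E) (LE N E).val a) *
        (RedTransfer.kmap A E (CechAdapter.redHom (OE A E) (LE N E).val b))⁻¹ := by
    rw [← h, map_mul]
    field_simp
  rw [h2]
  exact (redField N A).mul_mem (hmem a) ((redField N A).inv_mem (hmem b))

/-- The coordinate `j̄` of the `E`-level reduced field. -/
def ubarE : redFracE N A E :=
  ⟨jqModC (IsLocalRing.ResidueField (OE A E)), by
    letI := algebraOL (OE A E) E (LE N E)
    haveI := isScalarTower_OL (OE A E) E (LE N E)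
    have hu : ((LE N E).val (jE N E) : LaurentSeries E) =
        GaussDVR.iota (OE A E) E (jqModC (OE A E)) :=
      coeffEmb_jq_eq_iota (O := OE A E) (E := E)
    have hint : jE N E ∈ CechAdapter.C0 (O := OE A E) (jE N E) :=
      CechAdapter.self_mem_C0 (O := OE A E) (jE N E)
    refine ⟨⟨jE N E, CechAdapter.mem_gaussSub_of_int (LE N E).val (jE N E) (jqModC (OE A E)) hu⟩,
      1, hint, one_mem _, by rw [map_one]; exact one_ne_zero, ?_⟩
    rw [map_one, mul_one, CechAdapter.redHom_of_int (LE N E).val (jE N E) (jqModC (OE A E)) hu]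
    exact (coeffMap_jqModC _).symm⟩

theorem coe_ubarE : ((ubarE N A E : redFracE N A E) :
    LaurentSeries (IsLocalRing.ResidueField (OE A E))) =
      jqModC (IsLocalRing.ResidueField (OE A E)) := rfl

attribute [local instance] resAlg

theorem iota_eq_kmap (x : LaurentSeries (IsLocalRing.ResidueField (OE A E))) :
    Fermat.Agent.S30.E2.Degree.Abs.iota (Ω := IsLocalRing.ResidueField A) x =
      RedTransfer.kmap A E x := rfl

/-- **(x1)**, `Abs` form. -/
theorem hL {ℓ : ℕ} [Fact ℓ.Prime] (hA : A.LiesOverPrime ℓ) :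
    ∀ x ∈ redFracE N A E,
      Fermat.Agent.S30.E2.Degree.Abs.iota (Ω := IsLocalRing.ResidueField A) x ∈ redFieldI N A :=
  fun x hx => kmap_mem_redField N A E hA x hx

/-- The field homomorphism `redFracE N A E →+* redFieldI N A` induced by `kmap`. -/
abbrev rhoE {ℓ : ℕ} [Fact ℓ.Prime] (hA : A.LiesOverPrime ℓ) :
    redFracE N A E →+* redFieldI N A :=
  Fermat.Agent.S30.E2.Degree.Abs.rho (redFracE N A E) (redFieldI N A) (hL N A E hA)

theorem coe_rhoE {ℓ : ℕ} [Fact ℓ.Prime] (hA : A.LiesOverPrime ℓ) (x : redFracE N A E) :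
    ((rhoE N A E hA x : redFieldI N A) : LaurentSeries (IsLocalRing.ResidueField A)) =
      RedTransfer.kmap A E (x : LaurentSeries (IsLocalRing.ResidueField (OE A E))) := rfl

theorem rhoE_ubarE {ℓ : ℕ} [Fact ℓ.Prime] (hA : A.LiesOverPrime ℓ) :
    rhoE N A E hA (ubarE N A E) = jbI N A :=
  Subtype.ext (coeffMap_jqModC _)

/-- The reduction of every Gauss-integral element of `LE N E` lies in `redFracE N A E`
(from the Model package of the `j`-chart). -/
theorem redHom_mem (hCM : ModelInst.ChartModelC N (OE A E) E (jE N E)) :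
    letI := algebraOL (OE A E) E (LE N E)
    ∀ x : CechAdapter.gaussSub (OE A E) (LE N E).val,
      CechAdapter.redHom (OE A E) (LE N E).val x ∈ redFracE N A E := by
  letI := algebraOL (OE A E) E (LE N E)
  haveI := isScalarTower_OL (OE A E) E (LE N E)
  have hCM' : ModelInst.ChartModel N (OE A E) E (jE N E) := hCM
  obtain ⟨π, hπ⟩ := IsDiscreteValuationRing.exists_irreducible (OE A E)
  obtain ⟨uO, hu, hpole⟩ := hCM'.model
  haveI := hCM'.fin
  exact RedDatum.redHom_mem_redFrac (O := OE A E) (E := E) (L := LE N E) (LE N E).val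
    (fun x => E2G1.mem_fracField_of_mem_LE N A E x.2) π hπ (jE N E) uO hu hpole
    (hCM'.prime_zero π hπ)

/-- **(x4)** at one `E`: an element of the reduced field which descends to a Gauss-integral
series of `LE N E` lies in the image of `redFracE N A E`. -/
theorem exists_rhoE_eq {ℓ : ℕ} [Fact ℓ.Prime] (hA : A.LiesOverPrime ℓ)
    (hCM : ModelInst.ChartModelC N (OE A E) E (jE N E)) (x : redFieldI N A)
    (z : LaurentSeries E) (hz : z ∈ GaussDVR.V (OE A E) E) (hzL : z ∈ LE N E)
    (hzx : RedTransfer.kmap A E (GaussDVR.red (OE A E) E ⟨z, hz⟩) =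
      (x : LaurentSeries (IsLocalRing.ResidueField A))) :
    ∃ y : redFracE N A E, rhoE N A E hA y = x := by
  letI := algebraOL (OE A E) E (LE N E)
  haveI := isScalarTower_OL (OE A E) E (LE N E)
  have h1 := redHom_mem N A E hCM ⟨⟨z, hzL⟩, hz⟩
  exact ⟨⟨GaussDVR.red (OE A E) E ⟨z, hz⟩, h1⟩, Subtype.ext hzx⟩

/-- **(x2)** at one `E`: if a `κ(j̄)`-basis of the reduced field lies in the image of
`redFracE N A E`, then the reduced field is generated over `κ` by that image. -/
theorem hgen_of_basis {ℓ : ℕ} [Fact ℓ.Prime] (hA : A.LiesOverPrime ℓ) {n : ℕ}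
    (b : Module.Basis (Fin n) (IsLocalRing.ResidueField A)⟮jbI N A⟯ (redFieldI N A))
    (hb : ∀ i, ∃ y : redFracE N A E, rhoE N A E hA y = b i) :
    IntermediateField.adjoin (IsLocalRing.ResidueField A) (Set.range (rhoE N A E hA)) = ⊤ := by
  rw [eq_top_iff]
  intro x _
  set M := IntermediateField.adjoin (IsLocalRing.ResidueField A) (Set.range (rhoE N A E hA))
    with hM
  have hbM : ∀ i, b i ∈ M := fun i => by
    obtain ⟨y, hy⟩ := hb i
    exact IntermediateField.subset_adjoin _ _ ⟨y, hy⟩
  have hjM : jbI N A ∈ M :=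
    IntermediateField.subset_adjoin _ _ ⟨ubarE N A E, rhoE_ubarE N A E hA⟩
  have hle : (IsLocalRing.ResidueField A)⟮jbI N A⟯ ≤ M := by
    rw [IntermediateField.adjoin_simple_le_iff]
    exact hjM
  rw [← b.sum_repr x]
  refine sum_mem fun i _ => ?_
  rw [Algebra.smul_def]
  exact mul_mem (hle (b.repr x i).2) (hbM i)

end Level

/-! ### The `∃ S₀` forms -/

section Large

variable (N : ℕ) [NeZero N] (A : ValuationSubring Qb)

attribute [local instance] resAlg

/-- **(x4)** Every element of the reduced field lies in the image of `redFracE N A E` for all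
sufficiently large number fields `E`. -/
theorem exists_finset_mem_range {ℓ : ℕ} [Fact ℓ.Prime] (hℓN : ¬ ℓ ∣ N) (hA : A.LiesOverPrime ℓ)
    (hℓ : 3 < ℓ) (x : redFieldI N A) :
    ∃ S₀ : Finset Qb, ∀ (E : IntermediateField ℚ Qb) [FiniteDimensional ℚ E]
      [IsDiscreteValuationRing (OE A E)], (∀ s ∈ S₀, s ∈ E) →
      ∃ y : redFracE N A E, rhoE N A E hA y = x := by
  classical
  obtain ⟨S₁, h1⟩ := ModelInst.exists_finset_chartModel_j A N hℓN hA hℓ
  obtain ⟨S₂, h2⟩ := Dict.exists_finset_descent_redSet N A
    (x : LaurentSeries (IsLocalRing.ResidueField A)) (H.HeckeMem.mem_redField_iff.1 x.2)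
  refine ⟨S₁ ∪ S₂, fun E _ _ hE => ?_⟩
  obtain ⟨z, hz, hzL, hzx⟩ := h2 E (fun s hs => hE s (Finset.mem_union_right _ hs))
  exact exists_rhoE_eq N A E hA (h1 E (fun s hs => hE s (Finset.mem_union_left _ hs))) x z hz
    hzL hzx

/-- **(x2)** The reduced field is generated over `κ` by the image of `redFracE N A E`, for all
sufficiently large number fields `E`. -/
theorem exists_finset_hgen {ℓ : ℕ} [Fact ℓ.Prime] (hℓN : ¬ ℓ ∣ N) (hA : A.LiesOverPrime ℓ)
    (hℓ : 3 < ℓ) [FiniteDimensional (IsLocalRing.ResidueField A)⟮jbI N A⟯ (redFieldI N A)] :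
    ∃ S₀ : Finset Qb, ∀ (E : IntermediateField ℚ Qb) [FiniteDimensional ℚ E]
      [IsDiscreteValuationRing (OE A E)], (∀ s ∈ S₀, s ∈ E) →
      IntermediateField.adjoin (IsLocalRing.ResidueField A) (Set.range (rhoE N A E hA)) = ⊤ := by
  classical
  have : Module.Free (IsLocalRing.ResidueField A)⟮jbI N A⟯ (redFieldI N A) :=
    Module.Free.of_divisionRing _ _
  set b := Module.finBasis (IsLocalRing.ResidueField A)⟮jbI N A⟯ (redFieldI N A) with hb
  have hex : ∀ i, ∃ S : Finset Qb, ∀ (E : IntermediateField ℚ Qb) [FiniteDimensional ℚ E]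
      [IsDiscreteValuationRing (OE A E)], (∀ s ∈ S, s ∈ E) →
      ∃ y : redFracE N A E, rhoE N A E hA y = b i :=
    fun i => exists_finset_mem_range N A hℓN hA hℓ (b i)
  choose S hS using hex
  refine ⟨Finset.univ.biUnion S, fun E _ _ hE => ?_⟩
  exact hgen_of_basis N A E hA b fun i =>
    hS i E (fun s hs => hE s (Finset.mem_biUnion.mpr ⟨i, Finset.mem_univ i, hs⟩))

end Large

/-! ### `ConstTraceLS.traceDual_descent` for an arbitrary presentation of the algebra instance -/

section Generic

variable {E Ω : Type*} [Field E] [Field Ω] [Algebra E Ω]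

/-- `ConstTraceLS.traceDual_descent`, with the `E`-algebra structure of `LE` a variable (equal to
the canonical one): this is the form that applies to `RedDatum.redFrac`, whose algebra instance
is the shortcut `RedDatum.instAlgebraRedFrac`. -/
theorem traceDual_descent_inst (LE : IntermediateField E (LaurentSeries E)) [inst : Algebra E LE]
    (hinst : inst = SubalgebraClass.toAlgebra LE)
    (LΩ : IntermediateField Ω (LaurentSeries Ω))
    (hL : ∀ x ∈ LE, Fermat.Agent.S30.E2.Degree.Abs.iota (Ω := Ω) x ∈ LΩ)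
    (hgen : IntermediateField.adjoin Ω
      (Set.range (Fermat.Agent.S30.E2.Degree.Abs.rho LE LΩ hL)) = ⊤)
    (j : LE) (hj' : Transcendental Ω (Fermat.Agent.S30.E2.Degree.Abs.rho LE LΩ hL j))
    [FiniteDimensional Ω⟮Fermat.Agent.S30.E2.Degree.Abs.rho LE LΩ hL j⟯ LΩ] (G : LE)
    (hG0 : ∀ y : LΩ,
      IsIntegral (Algebra.adjoin Ω {Fermat.Agent.S30.E2.Degree.Abs.rho LE LΩ hL j}) y →
      ((Algebra.trace Ω⟮Fermat.Agent.S30.E2.Degree.Abs.rho LE LΩ hL j⟯ LΩ
        (Fermat.Agent.S30.E2.Degree.Abs.rho LE LΩ hL G * y) :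
        Ω⟮Fermat.Agent.S30.E2.Degree.Abs.rho LE LΩ hL j⟯) : LΩ) ∈
          Algebra.adjoin Ω {Fermat.Agent.S30.E2.Degree.Abs.rho LE LΩ hL j})
    (hGinf : ∀ y : LΩ,
      IsIntegral (Algebra.adjoin Ω {(Fermat.Agent.S30.E2.Degree.Abs.rho LE LΩ hL j)⁻¹}) y →
      ((Algebra.trace Ω⟮Fermat.Agent.S30.E2.Degree.Abs.rho LE LΩ hL j⟯ LΩ
        (Fermat.Agent.S30.E2.Degree.Abs.rho LE LΩ hL G *
          Fermat.Agent.S30.E2.Degree.Abs.rho LE LΩ hL j ^ 2 * y) :
        Ω⟮Fermat.Agent.S30.E2.Degree.Abs.rho LE LΩ hL j⟯) : LΩ) ∈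
          Algebra.adjoin Ω {(Fermat.Agent.S30.E2.Degree.Abs.rho LE LΩ hL j)⁻¹}) :
    (∀ b : LE, IsIntegral (Algebra.adjoin E {j}) b →
      ((Algebra.trace E⟮j⟯ LE (G * b) : E⟮j⟯) : LE) ∈ Algebra.adjoin E {j}) ∧
    (∀ c : LE, IsIntegral (Algebra.adjoin E {j⁻¹}) c →
      ((Algebra.trace E⟮j⟯ LE (G * j ^ 2 * c) : E⟮j⟯) : LE) ∈ Algebra.adjoin E {j⁻¹}) := by
  subst hinst
  haveI : FiniteDimensional E⟮j⟯ LE := ConstTraceLS.finite_down LE LΩ hL j
  exact ConstTraceLS.traceDual_descent LE LΩ hL hgen j hj' G hG0 hGinf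

/-- The shortcut instance of `RedDatum.redFrac` is the canonical one. -/
theorem instAlgebraRedFrac_eq {O F : Type*} [CommRing O] [IsDomain O] [IsDiscreteValuationRing O]
    [Field F] [Algebra O F] [IsFractionRing O F] {L : Type*} [Field L] [Algebra F L]
    [Algebra O L] [IsScalarTower O F L] (emb : L →ₐ[F] LaurentSeries F) (u : L) :
    RedDatum.instAlgebraRedFrac (O := O) emb u =
      SubalgebraClass.toAlgebra (RedDatum.redFrac O emb u) := rfl

end Generic

/-! ### The composite: descent of a trace-dual regular element -/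

section Composite

variable (N : ℕ) [NeZero N] (A : ValuationSubring Qb)

attribute [local instance] resAlg

/-- Descent of trace-duality at one `E` (with `J = j̄` and `G = kmap GE` as equations, so that
the statement can be used with any presentation of `j̄`). -/
theorem redFrac_dual_at (E : IntermediateField ℚ Qb) [IsDiscreteValuationRing (OE A E)]
    {ℓ : ℕ} [Fact ℓ.Prime] (hA : A.LiesOverPrime ℓ)
    (hgen : IntermediateField.adjoin (IsLocalRing.ResidueField A)
      (Set.range (rhoE N A E hA)) = ⊤)
    (J : redFieldI N A) (hJ : rhoE N A E hA (ubarE N A E) = J)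
    [FiniteDimensional (IsLocalRing.ResidueField A)⟮J⟯ (redFieldI N A)]
    (G : redFieldI N A) (GE : redFracE N A E) (hGE : rhoE N A E hA GE = G)
    (hG0 : ∀ y : redFieldI N A, IsIntegral (Algebra.adjoin (IsLocalRing.ResidueField A) {J}) y →
      ((Algebra.trace (IsLocalRing.ResidueField A)⟮J⟯ (redFieldI N A) (G * y) :
        (IsLocalRing.ResidueField A)⟮J⟯) : redFieldI N A) ∈
          Algebra.adjoin (IsLocalRing.ResidueField A) {J})
    (hGinf : ∀ y : redFieldI N A,
      IsIntegral (Algebra.adjoin (IsLocalRing.ResidueField A) {J⁻¹}) y →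
      ((Algebra.trace (IsLocalRing.ResidueField A)⟮J⟯ (redFieldI N A) (G * J ^ 2 * y) :
        (IsLocalRing.ResidueField A)⟮J⟯) : redFieldI N A) ∈
          Algebra.adjoin (IsLocalRing.ResidueField A) {J⁻¹}) :
    (∀ b : redFracE N A E,
      IsIntegral (Algebra.adjoin (IsLocalRing.ResidueField (OE A E)) {ubarE N A E}) b →
      ((Algebra.trace (IsLocalRing.ResidueField (OE A E))⟮ubarE N A E⟯ (redFracE N A E)
        (GE * b) : (IsLocalRing.ResidueField (OE A E))⟮ubarE N A E⟯) : redFracE N A E) ∈
          Algebra.adjoin (IsLocalRing.ResidueField (OE A E)) {ubarE N A E}) ∧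
    (∀ c : redFracE N A E,
      IsIntegral (Algebra.adjoin (IsLocalRing.ResidueField (OE A E)) {(ubarE N A E)⁻¹}) c →
      ((Algebra.trace (IsLocalRing.ResidueField (OE A E))⟮ubarE N A E⟯ (redFracE N A E)
        (GE * ubarE N A E ^ 2 * c) :
        (IsLocalRing.ResidueField (OE A E))⟮ubarE N A E⟯) : redFracE N A E) ∈
          Algebra.adjoin (IsLocalRing.ResidueField (OE A E)) {(ubarE N A E)⁻¹}) := by
  subst hJ
  subst hGE
  have hj' : Transcendental (IsLocalRing.ResidueField A) (rhoE N A E hA (ubarE N A E)) := by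
    refine LaurentConst.transcendental_of_order_ne_zero (redFieldI N A) _ ?_
    have h1 : ((rhoE N A E hA (ubarE N A E) : redFieldI N A) :
        LaurentSeries (IsLocalRing.ResidueField A)) = jqModC (IsLocalRing.ResidueField A) :=
      congrArg Subtype.val (rhoE_ubarE N A E hA)
    rw [h1]
    exact ne_of_lt (E2G1.order_jqModC_neg (IsLocalRing.ResidueField A))
  letI := algebraOL (OE A E) E (LE N E)
  haveI := isScalarTower_OL (OE A E) E (LE N E)
  exact traceDual_descent_inst (redFracE N A E)
    (instAlgebraRedFrac_eq (O := OE A E) (LE N E).val (jE N E)) (redFieldI N A) (hL N A E hA)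
    hgen (ubarE N A E) hj' GE hG0 hGinf

/-- **Base change of constants (route X, the content of row (X-a)).**  A trace-dual regular
element `G` of the reduced function field `redField N A` (over `κ[j̄]` and `κ[j̄⁻¹]`) descends,
for every sufficiently large number field `E`, to a trace-dual regular element of the `E`-level
reduced function field `redFracE N A E` (over `k_E[j̄]` and `k_E[j̄⁻¹]`): the input of
`LiftRed.exists_lift_red`.  The coordinate `ū` is any element of `redFracE N A E` with
`q`-expansion `jqModC k_E` (e.g. `ubarE N A E`, or `LiftRedGauss.uRed` of `jE N E`). -/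
theorem exists_redFrac_dual {ℓ : ℕ} [Fact ℓ.Prime] (hℓN : ¬ ℓ ∣ N) (hA : A.LiesOverPrime ℓ)
    (hℓ : 3 < ℓ) [FiniteDimensional (IsLocalRing.ResidueField A)⟮jbI N A⟯ (redFieldI N A)]
    (G : redFieldI N A)
    (hG0 : ∀ y : redFieldI N A,
      IsIntegral (Algebra.adjoin (IsLocalRing.ResidueField A) {jbI N A}) y →
      ((Algebra.trace (IsLocalRing.ResidueField A)⟮jbI N A⟯ (redFieldI N A) (G * y) :
        (IsLocalRing.ResidueField A)⟮jbI N A⟯) : redFieldI N A) ∈
          Algebra.adjoin (IsLocalRing.ResidueField A) {jbI N A})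
    (hGinf : ∀ y : redFieldI N A,
      IsIntegral (Algebra.adjoin (IsLocalRing.ResidueField A) {(jbI N A)⁻¹}) y →
      ((Algebra.trace (IsLocalRing.ResidueField A)⟮jbI N A⟯ (redFieldI N A)
        (G * jbI N A ^ 2 * y) : (IsLocalRing.ResidueField A)⟮jbI N A⟯) : redFieldI N A) ∈
          Algebra.adjoin (IsLocalRing.ResidueField A) {(jbI N A)⁻¹}) :
    ∃ S₀ : Finset Qb, ∀ (E : IntermediateField ℚ Qb) [FiniteDimensional ℚ E]
      [IsDiscreteValuationRing (OE A E)], (∀ s ∈ S₀, s ∈ E) →
      ∃ GE : redFracE N A E,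
        RedTransfer.kmap A E (GE : LaurentSeries (IsLocalRing.ResidueField (OE A E))) =
          (G : LaurentSeries (IsLocalRing.ResidueField A)) ∧
        ∀ ū : redFracE N A E, (ū : LaurentSeries (IsLocalRing.ResidueField (OE A E))) =
            jqModC (IsLocalRing.ResidueField (OE A E)) →
          (∀ b : redFracE N A E,
            IsIntegral (Algebra.adjoin (IsLocalRing.ResidueField (OE A E)) {ū}) b →
            ((Algebra.trace (IsLocalRing.ResidueField (OE A E))⟮ū⟯ (redFracE N A E)
              (GE * b) : (IsLocalRing.ResidueField (OE A E))⟮ū⟯) : redFracE N A E) ∈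
                Algebra.adjoin (IsLocalRing.ResidueField (OE A E)) {ū}) ∧
          (∀ c : redFracE N A E,
            IsIntegral (Algebra.adjoin (IsLocalRing.ResidueField (OE A E)) {ū⁻¹}) c →
            ((Algebra.trace (IsLocalRing.ResidueField (OE A E))⟮ū⟯ (redFracE N A E)
              (GE * ū ^ 2 * c) :
              (IsLocalRing.ResidueField (OE A E))⟮ū⟯) : redFracE N A E) ∈
                Algebra.adjoin (IsLocalRing.ResidueField (OE A E)) {ū⁻¹}) := by
  have h0 := exists_finset_hgen N A hℓN hA hℓ
  have h0' := exists_finset_mem_range N A hℓN hA hℓ G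
  obtain ⟨S₁, h1⟩ := h0
  obtain ⟨S₂, h2⟩ := h0'
  refine ⟨S₁ ∪ S₂, fun E _ _ hE => ?_⟩
  have h2' := h2 E (fun s hs => hE s (Finset.mem_union_right _ hs))
  obtain ⟨GE, hGE⟩ := h2'
  have hgen := h1 E (fun s hs => hE s (Finset.mem_union_left _ hs))
  have key := redFrac_dual_at N A E hA hgen (jbI N A) (rhoE_ubarE N A E hA) G GE hGE hG0 hGinf
  have h3 : RedTransfer.kmap A E (GE : LaurentSeries (IsLocalRing.ResidueField (OE A E))) =
      (G : LaurentSeries (IsLocalRing.ResidueField A)) := congrArg Subtype.val hGE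
  refine ⟨GE, h3, fun ū hū => ?_⟩
  have hū' : ū = ubarE N A E := Subtype.ext hū
  subst hū'
  exact key

end Composite

end Fermat.Agent.S44.D.BaseChange.Inst
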