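import Mathlib
import Fermat.Agent.S44.D.TraceLiftX
import Fermat.Agent.S44.D.RegBridge
import Fermat.Agent.S44.D.BaseChange.Inst
import Fermat.Agent.S44.H.RedFin
import Fermat.Agent.S44.H.SepSeries

/-!
# PROGRAM MR (S44), strand D, route X, row (X-a): `RedFracDualStatement`

The junction `TraceLiftX.RedFracDualStatement` of route X, as a theorem:

* `RegBridge.traceDual_redField_int_of` (row D.Reg): for a `RegLog` datum there is a trace-dual
  regular `G` in the reduced function field `redField N' A`, read as an intermediate field of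
  `κ((q)) / κ`, with `G θ(j̄) = φ`;
* `BaseChange.Inst.exists_redFrac_dual` (base change of constants): `G` descends, for every
  sufficiently large number field `E`, to a trace-dual regular element of the `E`-level
  function field of the special fibre of the `j`-chart.
-/

set_option autoImplicit false
set_option linter.unusedSectionVars false
set_option linter.style.haveILetI false
set_option synthInstance.maxHeartbeats 400000
set_option maxHeartbeats 1000000

open ModularCurve AlgebraicCurve Polynomial IntermediateField

noncomputable section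

namespace Fermat.Agent.S44.D.BaseChange.RedFracDual

open Fermat.Agent.S44.Contract Fermat.Agent.S37.Fn
open Fermat.Agent.S18 Fermat.Agent.S18.K1Defs Fermat.Agent.S18.K1Main
open Fermat.Agent.S30 Fermat.Agent.S30.Model Fermat.Agent.S30.Model.CechP1
open Fermat.Agent.S44.D Fermat.Agent.S44.D.CechAdapter Fermat.Agent.S44.D.RedDatum
open Fermat.Agent.S44.D.LiftRedGauss Fermat.Agent.S44.L

local notation "Qb" => AlgebraicClosure ℚ

/-- `θ(j̄)` is `θ(j̄)`. -/
theorem isThetaJ_theta (K : Type*) [CommRing K] :
    IsThetaJ K (Fermat.Agent.S36.QFormal.theta (jqModC K)) :=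
  fun n => Fermat.Agent.S36.QFormal.coeff_theta _ n

/-- The coordinate `uRed` of the special fibre of the `j`-chart has `q`-expansion `j̄`. -/
theorem coe_uRed_jE (N : ℕ) [NeZero N] (A : ValuationSubring Qb) (E : IntermediateField ℚ Qb)
    [IsDiscreteValuationRing (OE A E)] :
    letI := algebraOL (OE A E) E (LE N E)
    haveI := isScalarTower_OL (OE A E) E (LE N E)
    ∀ huG : jE N E ∈ gaussSub (OE A E) (LE N E).val,
      ((uRed (LE N E).val (jE N E) huG : redFrac (OE A E) (LE N E).val (jE N E)) :
        LaurentSeries (IsLocalRing.ResidueField (OE A E))) =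
          jqModC (IsLocalRing.ResidueField (OE A E)) := by
  letI := algebraOL (OE A E) E (LE N E)
  haveI := isScalarTower_OL (OE A E) E (LE N E)
  intro huG
  have hu : ((LE N E).val (jE N E) : LaurentSeries E) =
      GaussDVR.iota (OE A E) E (jqModC (OE A E)) :=
    coeffEmb_jq_eq_iota (O := OE A E) (E := E)
  have h1 := CechAdapter.redHom_of_int (LE N E).val (jE N E) (jqModC (OE A E)) hu
  exact h1.trans (coeffMap_jqModC _)

/-- **Row (X-a)**, from the two strand-H literals. -/
theorem redFracDualStatement_of (hFin : H.RedFinStatement) (hSep : H.SepSeriesStatement) :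
    TraceLiftX.RedFracDualStatement := by
  intro p N' _ hp hp5 hpN A hA f g φ hf hU hg hφ
  haveI : Fact p.Prime := ⟨hp⟩
  have hfs := RegBridge.finite_sep_int (N := N') hFin hSep hp hA (Inst.redFieldI N' A)
    (fun _ => Iff.rfl) (Inst.jbI N' A) rfl
  haveI := hfs.1
  have hreg := RegBridge.traceDual_redField_int_of (N := N') hFin hSep hp hA
    (Inst.redFieldI N' A) (fun _ => Iff.rfl) (Inst.jbI N' A) rfl f g φ hf hU hg hφ
  obtain ⟨G, hGφ, hG0, hGinf⟩ := hreg
  have hex := Inst.exists_redFrac_dual N' A hpN hA (by omega) G hG0 hGinf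
  obtain ⟨S₀, hS⟩ := hex
  refine ⟨S₀, fun E _ _ hE => ?_⟩
  letI := algebraOL (OE A E) E (LE N' E)
  haveI := isScalarTower_OL (OE A E) E (LE N' E)
  intro huG
  have h := hS E hE
  obtain ⟨GE, hGE, hdual⟩ := h
  have hd := hdual (uRed (LE N' E).val (jE N' E) huG) (coe_uRed_jE N' A E huG)
  exact ⟨GE, Fermat.Agent.S36.QFormal.theta (jqModC (IsLocalRing.ResidueField A)),
    isThetaJ_theta _, by rw [hGE]; exact hGφ, hd⟩

/-- **Row (X-a): the junction of route X is a theorem.** -/
theorem redFracDualStatement : TraceLiftX.RedFracDualStatement :=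
  redFracDualStatement_of H.RedFin.redFin H.SepSeries.sepSeries

end Fermat.Agent.S44.D.BaseChange.RedFracDual
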